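/-
S59lib / P3 / Geom3 / Hecke  (helper6)  — Project I, item (P3-a): THE HECKE INPUTS OVER A NODAL CONTEXT, WITH THE
CONSTANT VECTORS AS EISENSTEIN SUBGROUP.

`S44lib/Q4/Inst.modHeckeInputs` (level `M q`, `q ≥ 5`) takes `Eis = eisSub`, spanned by the vectors
`c ↦ ord_{x_i c} H₂ mod p`.  At the levels where `ord_{x_i c} H₂ = 12` for all nodes (`q ≥ 5` elliptic-free, or
`q = 3`, `4 ∣ M`) this vector is `12 · (1,…,1)`, which VANISHES for `p = q = 3`.  Here `Eis` is the subgroup of the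
CONSTANT vectors; `T_ℓ = ℓ + 1` on it follows from the integral identity `Q4.sum_nodeMatrix_mul_ord_H₂` divided
by `12` in `ℤ` (the row sums of the node matrix of `T̄_ℓ` are `ℓ + 1`).

* `constSub s m`, `mem_constSub`;
* `sum_nodeMatrix_eq` : row sums;  `nodeHomPair_eq_smul_of_mem_constSub`;
* **`modHeckeInputsC hqM hA C hq2 hord12 : Kap.HeckeInputs (modNModInstC hqM hA C)`** with `Eis = constSub _ q`.
-/
import Fermat.Agent.S59lib.P3.Geom3.Inst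
import Fermat.Agent.S44lib.Q4.Inst

set_option autoImplicit false
set_option linter.unusedSectionVars false
set_option linter.style.haveILetI false

noncomputable section

namespace Fermat.Agent.S59lib.P3.Geom3

open AlgebraicCurve ModularCurve Fermat.Agent.S18lib Fermat.Agent.S37lib
open Fermat.Agent.LSb Fermat.Agent.LSb.Unit Fermat.Agent.S33lib Fermat.Agent.S33lib.N
open Fermat.Agent.S44lib Fermat.Agent.S44lib.Kap Fermat.Agent.S44lib.Q4 Fermat.Agent.S19lib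
open Fermat.Agent.S43lib.B0.Gen

local notation "Qb" => AlgebraicClosure ℚ

/-! ### the constant vectors -/

/-- **the subgroup of pairs of constant vectors** -/
def constSub (s m : ℕ) : AddSubgroup ((Fin s → ZMod m) × (Fin s → ZMod m)) :=
  AddSubgroup.prod (AddSubgroup.zmultiples (fun _ => (1 : ZMod m)))
    (AddSubgroup.zmultiples (fun _ => (1 : ZMod m)))

theorem mem_constSub {s m : ℕ} {r : (Fin s → ZMod m) × (Fin s → ZMod m)} :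
    r ∈ constSub s m ↔ (∃ t : ℤ, ∀ c, r.1 c = (t : ZMod m)) ∧ ∃ t : ℤ, ∀ c, r.2 c = (t : ZMod m) := by
  rw [constSub, AddSubgroup.mem_prod, AddSubgroup.mem_zmultiples_iff, AddSubgroup.mem_zmultiples_iff]
  constructor
  · rintro ⟨⟨t₁, h₁⟩, ⟨t₂, h₂⟩⟩
    refine ⟨⟨t₁, fun c => ?_⟩, ⟨t₂, fun c => ?_⟩⟩
    · rw [← h₁, Pi.smul_apply, zsmul_eq_mul, mul_one]
    · rw [← h₂, Pi.smul_apply, zsmul_eq_mul, mul_one]
  · rintro ⟨⟨t₁, h₁⟩, ⟨t₂, h₂⟩⟩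
    refine ⟨⟨t₁, ?_⟩, ⟨t₂, ?_⟩⟩
    · funext c
      rw [Pi.smul_apply, zsmul_eq_mul, mul_one, h₁]
    · funext c
      rw [Pi.smul_apply, zsmul_eq_mul, mul_one, h₂]

variable {M q : ℕ} [NeZero M] [NeZero q] [hq : Fact q.Prime] {A : ValuationSubring Qb}

local notation "kA" => IsLocalRing.ResidueField A

section RowSums

variable {ℓ : ℕ} [NeZero ℓ] [hℓ : Fact ℓ.Prime]
variable [HasPrincipalDivisors (IsLocalRing.ResidueField A) (FRes A M)]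
variable [HasPrincipalDivisors (IsLocalRing.ResidueField A) (FRes A (M * ℓ))]
variable {ι : Type*} [Fintype ι]

/-- **the row sums of the node matrix of `T̄_ℓ` are `ℓ + 1`**, when `ord H₂ = 12` at all nodes -/
theorem sum_nodeMatrix_eq {x : ι → Place kA (FRes A M)} (hx : Function.Injective x)
    (hA : A.LiesOverPrime q) (hq2 : q ≠ 2) (hqℓ : q ≠ ℓ)
    (hqMℓ : ¬ q ∣ M * ℓ) (hℓM : ¬ ℓ ∣ M)
    (hdeg : ∀ w : Place kA (FRes A (M * ℓ)), w.deg = 1)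
    {D1 : GaussDatum A (FBar (M * q)) (FRes A M)} (h1 : Old.IsGaussOne D1)
    (hnodes : ∀ Q : Place kA (FRes A M), Q ∈ modNodes D1 ↔ ∃ c, x c = Q)
    (h12 : ∀ c, (x c).ord (H₂ D1) = 12) (c : ι) :
    ∑ c' : ι, nodeMatrix x (heckeDivK A M ℓ) c c' = (ℓ : ℤ) + 1 := by
  have h := sum_nodeMatrix_mul_ord_H₂ hx hA hq2 hqℓ hqMℓ hℓM hdeg h1 hnodes c
  simp only [h12] at h
  rw [← Finset.sum_mul] at h
  exact mul_right_cancel₀ (by norm_num : (12 : ℤ) ≠ 0) h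

/-- the constant vectors are eigenvectors of the node matrix of `T̄_ℓ`, with eigenvalue `ℓ + 1` -/
theorem nodeHom_const {x : ι → Place kA (FRes A M)} (hx : Function.Injective x)
    (hA : A.LiesOverPrime q) (hq2 : q ≠ 2) (hqℓ : q ≠ ℓ)
    (hqMℓ : ¬ q ∣ M * ℓ) (hℓM : ¬ ℓ ∣ M)
    (hdeg : ∀ w : Place kA (FRes A (M * ℓ)), w.deg = 1)
    {D1 : GaussDatum A (FBar (M * q)) (FRes A M)} (h1 : Old.IsGaussOne D1)
    (hnodes : ∀ Q : Place kA (FRes A M), Q ∈ modNodes D1 ↔ ∃ c, x c = Q)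
    (h12 : ∀ c, (x c).ord (H₂ D1) = 12) (m : ℕ) (r : ι → ZMod m) (t : ZMod m)
    (hr : ∀ c, r c = t) :
    nodeHom x (heckeDivK A M ℓ) m r = ((ℓ : ℤ) + 1) • r := by
  funext c
  have h := sum_nodeMatrix_eq hx hA hq2 hqℓ hqMℓ hℓM hdeg h1 hnodes h12 c
  have h' := congrArg (fun z : ℤ => (z : ZMod m)) h
  simp only [Int.cast_sum] at h'
  rw [nodeHom_apply, Pi.smul_apply, zsmul_eq_mul]
  simp only [hr]
  rw [← Finset.sum_mul, h']

/-- **`eis`** for the constant vectors -/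
theorem nodeHomPair_eq_smul_of_mem_constSub
    (D : NodalDatum A (FBar (M * q)) (FRes A M) (FRes A M))
    (hx₁ : Function.Injective D.x₁) (hx₂ : Function.Injective D.x₂)
    (hA : A.LiesOverPrime q) (hq2 : q ≠ 2) (hqℓ : q ≠ ℓ) (hqMℓ : ¬ q ∣ M * ℓ) (hℓM : ¬ ℓ ∣ M)
    (hdeg : ∀ w : Place kA (FRes A (M * ℓ)), w.deg = 1) (h1 : Old.IsGaussOne D.V₁)
    (hn₁ : ∀ Q : Place kA (FRes A M), Q ∈ modNodes D.V₁ ↔ ∃ c, D.x₁ c = Q)
    (hn₂ : ∀ Q : Place kA (FRes A M), Q ∈ modNodes D.V₁ ↔ ∃ c, D.x₂ c = Q)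
    (h12₁ : ∀ c, (D.x₁ c).ord (H₂ D.V₁) = 12) (h12₂ : ∀ c, (D.x₂ c).ord (H₂ D.V₁) = 12) (m : ℕ)
    {r : (Fin D.s → ZMod m) × (Fin D.s → ZMod m)} (hr : r ∈ constSub D.s m) :
    nodeHomPair ℓ D m r = ((ℓ : ℤ) + 1) • r := by
  obtain ⟨⟨t₁, ht₁⟩, ⟨t₂, ht₂⟩⟩ := mem_constSub.1 hr
  refine Prod.ext ?_ ?_
  · show nodeHom D.x₁ (heckeDivK A M ℓ) m r.1 = ((ℓ : ℤ) + 1) • r.1
    exact nodeHom_const hx₁ hA hq2 hqℓ hqMℓ hℓM hdeg h1 hn₁ h12₁ m r.1 _ ht₁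
  · show nodeHom D.x₂ (heckeDivK A M ℓ) m r.2 = ((ℓ : ℤ) + 1) • r.2
    exact nodeHom_const hx₂ hA hq2 hqℓ hqMℓ hℓM hdeg h1 hn₂ h12₂ m r.2 _ ht₂

end RowSums

/-! ### the Hecke inputs -/

variable (hqM : ¬ q ∣ M) (hA : A.LiesOverPrime q)
variable (C : NodalCtx (modNod hqM hA) (modG M q) (modGk hqM hA) (modGk hqM hA))

/-- **`TΩ ℓ`**: `T̄_ℓ` on both components -/
def modTΩC (ℓ : Nat.Primes) :
    QOm (modNModInstC hqM hA C) →+ QOm (modNModInstC hqM hA C) :=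
  haveI : NeZero (ℓ : ℕ) := ⟨ℓ.2.ne_zero⟩
  heckeOmPair A M (ℓ : ℕ) q

/-- **`TR ℓ`**: the node matrices of `T̄_ℓ` (`0` if `q ∣ M ℓ`) -/
def modTRC (ℓ : Nat.Primes) :
    QRes (modNModInstC hqM hA C) →+ QRes (modNModInstC hqM hA C) :=
  haveI : NeZero (ℓ : ℕ) := ⟨ℓ.2.ne_zero⟩
  if h : ¬ q ∣ M * (ℓ : ℕ) then
    haveI : HasPrincipalDivisors kA (FRes A (M * (ℓ : ℕ))) := modHpdK h hA
    nodeHomPair (ℓ : ℕ) (modNod hqM hA) q
  else 0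

/-- **`Eis`**: the constant vectors -/
def modEisC : AddSubgroup (QRes (modNModInstC hqM hA C)) :=
  constSub (modNod hqM hA).s q

theorem modTRC_of_not_dvd (ℓ : Nat.Primes) (h : ¬ q ∣ M * (ℓ : ℕ)) :
    modTRC hqM hA C ℓ =
      (haveI : NeZero (ℓ : ℕ) := ⟨ℓ.2.ne_zero⟩
       haveI : HasPrincipalDivisors kA (FRes A (M * (ℓ : ℕ))) := modHpdK h hA
       nodeHomPair (ℓ : ℕ) (modNod hqM hA) q) := by
  unfold modTRC
  exact dif_pos h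

/-- **`Ψ_hecke`** -/
theorem modPsiC_heckeOperatorBar (ℓ : Nat.Primes) (hℓN : ¬ (ℓ : ℕ) ∣ M * q)
    (x : JZero (M * q)) (hx : x ∈ tors (M * q) (q : ℤ)) :
    QPsi (modNModInstC hqM hA C) (heckeOperatorBar (M * q) ℓ x) =
      modTΩC hqM hA C ℓ (QPsi (modNModInstC hqM hA C) x) := by
  haveI : NeZero (ℓ : ℕ) := ⟨ℓ.2.ne_zero⟩
  exact psi_heckeOperatorBar (modNod hqM hA) hqM (modD1_isGaussOne hqM hA)
    (fun _ hy => Val.gaussOne_O_le M q A hqM hA hy) (modD2'_isGaussTwo hqM hA) hA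
    (modG_spec M q) ℓ.2 hℓN (smul_eq_zero_of_mem_tors hx)

/-- **`res_hecke`** -/
theorem modResC_hecke (ℓ : Nat.Primes) (hℓN : ¬ (ℓ : ℕ) ∣ M * q)
    (x : JZero (M * q)) (hx : x ∈ tors (M * q) (q : ℤ)) :
    QresHom (modNModInstC hqM hA C)
        (modTΩC hqM hA C ℓ (QPsi (modNModInstC hqM hA C) x)) =
      modTRC hqM hA C ℓ
        (QresHom (modNModInstC hqM hA C) (QPsi (modNModInstC hqM hA C) x)) := by
  haveI : NeZero (ℓ : ℕ) := ⟨ℓ.2.ne_zero⟩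
  have hqMℓ : ¬ q ∣ M * (ℓ : ℕ) := S35lib.New.wqHecke_not_dvd M q hq.out hqM ℓ.2 hℓN
  haveI : HasPrincipalDivisors kA (FRes A M) := modHpdK hqM hA
  haveI : HasPrincipalDivisors kA (FRes A (M * (ℓ : ℕ))) := modHpdK hqMℓ hA
  rw [modTRC_of_not_dvd hqM hA C ℓ hqMℓ]
  have hx0 := smul_eq_zero_of_mem_tors hx
  exact resMap_heckeOmPair (modNod hqM hA) (modX₁_injective hA) modX₂_injective hA hqMℓ
    (deg_eq_one_FRes hA hqMℓ) q _
    (fun Q hQ => ordHom_psi_eq_zero_of_ne₁ (modNRedC hqM hA C) C hx0 hQ)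
    (fun Q hQ => ordHom_psi_eq_zero_of_ne₂ (modNRedC hqM hA C) C hx0 hQ)

variable (hord12 : ∀ c : Fin (modS (modD1 hqM hA)),
  (modX₁ hA (modD1 hqM hA) c).ord (H₂ (modD1 hqM hA)) = 12 ∧
    (modX₂ (modD1 hqM hA) c).ord (H₂ (modD1 hqM hA)) = 12)

include hord12 in
/-- **`eis`** -/
theorem modEisC_hecke (hq2 : q ≠ 2) (ℓ : Nat.Primes) (hℓN : ¬ (ℓ : ℕ) ∣ M * q) (hℓq : (ℓ : ℕ) ≠ q)
    (r : QRes (modNModInstC hqM hA C)) (hr : r ∈ modEisC hqM hA C) :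
    modTRC hqM hA C ℓ r = (((ℓ : ℕ) : ℤ) + 1) • r := by
  haveI : NeZero (ℓ : ℕ) := ⟨ℓ.2.ne_zero⟩
  haveI : Fact (ℓ : ℕ).Prime := ⟨ℓ.2⟩
  have hqMℓ : ¬ q ∣ M * (ℓ : ℕ) := S35lib.New.wqHecke_not_dvd M q hq.out hqM ℓ.2 hℓN
  have hℓM : ¬ (ℓ : ℕ) ∣ M := fun h => hℓN (h.trans (Dvd.intro q rfl))
  haveI : HasPrincipalDivisors kA (FRes A M) := modHpdK hqM hA
  haveI : HasPrincipalDivisors kA (FRes A (M * (ℓ : ℕ))) := modHpdK hqMℓ hA
  rw [modTRC_of_not_dvd hqM hA C ℓ hqMℓ]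
  exact nodeHomPair_eq_smul_of_mem_constSub (modNod hqM hA) (modX₁_injective hA) modX₂_injective hA
    hq2 (Ne.symm hℓq) hqMℓ hℓM (deg_eq_one_FRes hA hqMℓ) (modD1_isGaussOne hqM hA)
    (mem_modNodes_iff_modX₁ hA (modD1_isGaussOne hqM hA))
    (mem_modNodes_iff_modX₂ (modD1_isGaussOne hqM hA))
    (fun c => (hord12 c).1) (fun c => (hord12 c).2) q hr

/-- **the Hecke inputs of the geometric package at level `M q`**, from a nodal context and `a_c = 12` -/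
def modHeckeInputsC (hq2 : q ≠ 2) : HeckeInputs (modNModInstC hqM hA C) where
  TΩ := modTΩC hqM hA C
  TR := modTRC hqM hA C
  Eis := modEisC hqM hA C
  Ψ_hecke := fun ℓ hℓ x hx => modPsiC_heckeOperatorBar hqM hA C ℓ hℓ x hx
  res_hecke := fun ℓ hℓ x hx => modResC_hecke hqM hA C ℓ hℓ x hx
  eis := fun ℓ hℓ hℓq r hr => modEisC_hecke hqM hA C hord12 hq2 ℓ hℓ hℓq r hr

@[simp] theorem modHeckeInputsC_TΩ (hq2 : q ≠ 2) :
    (modHeckeInputsC hqM hA C hord12 hq2).TΩ = modTΩC hqM hA C := rfl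

@[simp] theorem modHeckeInputsC_TR (hq2 : q ≠ 2) :
    (modHeckeInputsC hqM hA C hord12 hq2).TR = modTRC hqM hA C := rfl

theorem modHeckeInputsC_Eis (hq2 : q ≠ 2) :
    (modHeckeInputsC hqM hA C hord12 hq2).Eis = constSub (modNod hqM hA).s q := rfl

end Fermat.Agent.S59lib.P3.Geom3

end
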