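/-
S59lib / P3 / Geom3 / MPrime  (helper6)  — Project I, item (P3-a): THE WILD `(M′)` OVER A NODAL CONTEXT.

Level `M q`, `A ∣ q`, torsion order `p = q ≥ 3`, a nodal context `C` of the modular nodal datum with
`ord_{x_i c} H₂ = 12` at all nodes (all annuli of thickness `v(q)`).  `S44lib/M/Inst.cMap_const_of_mprime`
(`3 ≤ p`!) gives the constancy of the node orders of `Ψ x` for `x ∈ J₀(M q)[q]` peu ramifié in the V-form; since
we stay at such a level, no descent (no division by `12`) is needed and the conclusion is read in the subgroup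
of CONSTANT vectors:

* `mprime_modC`   : `cMap` form (re-typing of `S44lib/M/ModInst.mprime_mod` over `C`);
* **`mprimeStmtC hqM hA C hord12 hq3 : Kap.MPrimeStmt (modNModInstC hqM hA C) (constSub _ q)`**.
-/
import Fermat.Agent.S59lib.P3.Geom3.Hecke
import Fermat.Agent.S43lib.B0.Toric.Gen.Coord
import Fermat.Agent.S44lib.Lvl.MPrimeClosed

set_option autoImplicit false
set_option linter.unusedSectionVars false
set_option linter.style.haveILetI false

noncomputable section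

namespace Fermat.Agent.S59lib.P3.Geom3

open Fermat.Agent.S18lib AlgebraicCurve ModularCurve Fermat.Agent.LSb
open Fermat.Agent.S33lib Fermat.Agent.S19lib Fermat.Agent.S44lib Fermat.Agent.S44lib.M
open Fermat.Agent.S33lib.N Fermat.Agent.S29lib.GH
open Fermat.Agent.LSb.Unit Fermat.Agent.LSb.Val Fermat.Agent.S44lib.Kap Fermat.Agent.S44lib.Q4
open Fermat.Agent.S43lib.B0.Gen

local notation "Qb" => AlgebraicClosure ℚ
local notation "GQ" => (AlgebraicClosure ℚ ≃ₐ[ℚ] AlgebraicClosure ℚ)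

variable {M q : ℕ} [NeZero M] [NeZero q] [hq : Fact q.Prime] {A : ValuationSubring Qb}
variable (hqM : ¬ q ∣ M) (hA : A.LiesOverPrime q)
variable (C : NodalCtx (Kap.modNod hqM hA) (Kap.modG M q) (Kap.modGk hqM hA) (Kap.modGk hqM hA))

local notation "kA" => IsLocalRing.ResidueField A

section Mod

variable {z : FBar (M * q)}
  (hz : Ann.UnifCoord (Kap.modNod hqM hA) (modNRedC hqM hA C).r ((q : ℕ) : Qb) z)

/-- **(M′) for the concrete nodal package of a nodal context, in `cMap` form** (`q ≥ 3`) -/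
theorem mprime_modC (hq3 : 3 ≤ q) (hzfix : ∀ σ ∈ IA A, galAutBar (M * q) σ • z = z)
    (hann : ∀ σ ∈ IA A, ∀ P : Place Qb (FBar (M * q)),
      (modAnnC hqM hA C hz).ann (galAutBar (M * q) σ • P) = (modAnnC hqM hA C hz).ann P)
    {x : JZero (M * q)} (hx : x ∈ tors (M * q) (q : ℤ)) (w : Qb) (hw : IsUnitRoot A q w)
    (hfix : FixedOver A q w x)
    (h2 : ∀ σ ∈ IOne A q, ∀ τ ∈ IOne A q, τ • (σ • x - x) = σ • x - x)
    (c c' : Fin (modNRedC hqM hA C).nod.s) :
    Kap.cMap₁ (modNRedC hqM hA C) C q (Kap.torsOf hx) c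
        = Kap.cMap₁ (modNRedC hqM hA C) C q (Kap.torsOf hx) c' ∧
      Kap.cMap₂ (modNRedC hqM hA C) C q (Kap.torsOf hx) c
        = Kap.cMap₂ (modNRedC hqM hA C) C q (Kap.torsOf hx) c' := by
  letI := Kap.modHpdK hqM hA
  haveI := Kap.modInfinite (A := A)
  obtain ⟨a, -⟩ := (modNModInstC hqM hA C).famS ∅
  obtain ⟨hsurj, hinj⟩ := (modNModInstC hqM hA C).kerS a
  have hS : AnnSym (modAnnC hqM hA C hz) (modSymC hqM hA C) :=
    annSym_of_liftCtx (D := modAnnC hqM hA C hz) (S := modSymC hqM hA C)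
      (modLiftCtxC hqM hA C)
      (fun g P => hann g.1 g.2 P) (fun g _ => hzfix g.1 g.2) (fun g _ => by
        show SemilinearAut.baseAut (galAutBar (M * q) (g : GQ)) ((q : ℕ) : Qb) = ((q : ℕ) : Qb)
        exact map_natCast _ _)
  exact cMap_const_of_mprime hq.out hq3 hA (modAnnC hqM hA C hz) C (modSymC hqM hA C)
    (fun _ => rfl) a hsurj hinj
    (fun σ hσ y hy => sub_mem_NKred_of_inertia (modNModInstC hqM hA C) hA hσ.1 hy) hS
    (Ann.annOfNCtx_glueAnn _ hz _ _) (Ann.annOfNCtx_slopeLaw _ hz _ _) (fun _ => rfl)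
    hx w hw hfix h2 c c'

end Mod

variable (hord12 : ∀ c : Fin (modS (Kap.modD1 hqM hA)),
  (modX₁ hA (Kap.modD1 hqM hA) c).ord (H₂ (Kap.modD1 hqM hA)) = 12 ∧
    (modX₂ (Kap.modD1 hqM hA) c).ord (H₂ (Kap.modD1 hqM hA)) = 12)

include C hord12 in
/-- **the wild `(M′)` in constant form** -/
theorem kapOrd_constC (hq3 : 3 ≤ q)
    {x : JZero (M * q)} (hx : x ∈ tors (M * q) (q : ℤ)) (w : Qb) (hw : IsUnitRoot A q w)
    (hfix : FixedOver A q w x)
    (h2 : ∀ σ ∈ IOne A q, ∀ τ ∈ IOne A q, τ • (σ • x - x) = σ • x - x) :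
    (∀ c c', kapOrd (gaussOne M q A hqM hA) q (modX₁ hA (gaussOne M q A hqM hA) c) x =
        kapOrd (gaussOne M q A hqM hA) q (modX₁ hA (gaussOne M q A hqM hA) c') x) ∧
      (∀ c c', kapOrd (modD2 hqM (gaussOne M q A hqM hA)) q
          (modX₂ (gaussOne M q A hqM hA) c) x =
        kapOrd (modD2 hqM (gaussOne M q A hqM hA)) q (modX₂ (gaussOne M q A hqM hA) c') x) := by
  letI := modHpdK hqM hA
  haveI := modInfinite (A := A)
  obtain ⟨z, hz, -, hzfix⟩ := exists_unifCoordC hqM hA C hord12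
    (Lvl.kronLiftStmt_holds M q A hqM hA)
  have hann : ∀ σ ∈ IA A, ∀ P : Place Qb (FBar (M * q)),
      (modAnnC hqM hA C hz).ann (galAutBar (M * q) σ • P) = (modAnnC hqM hA C hz).ann P :=
    fun σ hσ P => Ann.annOfNCtx_ann_smul C hz S44lib.M.exists_sqrt_Qb
      (modInertialC hqM hA σ hσ) P
  exact ⟨fun c c' => (mprime_modC hqM hA C hz hq3 hzfix hann hx w hw hfix h2 c c').1,
    fun c c' => (mprime_modC hqM hA C hz hq3 hzfix hann hx w hw hfix h2 c c').2⟩

include hord12 in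
/-- **THE WILD `(M′)`** for the nodal package of a nodal context with `a_c = 12`, with values in the
constant vectors -/
theorem mprimeStmtC (hq3 : 3 ≤ q) :
    MPrimeStmt (modNModInstC hqM hA C) (constSub (modNod hqM hA).s q) := by
  intro x hx w hw hfix hI
  obtain ⟨h1, h2⟩ := kapOrd_constC hqM hA C hord12 hq3 hx w hw hfix hI
  haveI := modHpdK hqM hA
  have hcast : ∀ a : ZMod q, (((a.val : ℕ) : ℤ) : ZMod q) = a := fun a => by
    rw [Int.cast_natCast, ZMod.natCast_zmod_val]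
  obtain ⟨t₁, ht₁⟩ := Lvl.exists_const_of_forall_eq _ h1
  obtain ⟨t₂, ht₂⟩ := Lvl.exists_const_of_forall_eq _ h2
  refine mem_constSub.2 ⟨⟨((t₁.val : ℕ) : ℤ), fun c => ?_⟩, ⟨((t₂.val : ℕ) : ℤ), fun c => ?_⟩⟩
  · rw [hcast]
    exact ht₁ c
  · rw [hcast]
    exact ht₂ c

end Fermat.Agent.S59lib.P3.Geom3

end
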