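/-
S59lib / P3 / Geom3 / Old  (helper6)  — Project I, item (P3-a): Q5 (`OldStmt`) OVER A NODAL CONTEXT, AND THE
GEOMETRIC PACKAGE.

* `oldStmtC` : re-typing of `S44lib/Q5/Old.oldStmt_mod` over a nodal context `C` (the proof only uses
  `Q5.old_of_class`, valid for every residue characteristic `q ∤ M`, and `Q5.liftStmt_holds`);
* **`psiPackageC hqM hA C hord12 hq3 : S44lib.PsiPackage (M * q) q A`** : the geometric package of
  `S44lib/Iface.lean` (Mazur–Ribet at `p = q`), for EVERY prime `q ≥ 3` and every level `M q` carrying a nodal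
  context with `ord_{x_i c} H₂ = 12` at all nodes; its Eisenstein subgroup is the subgroup of constant vectors;
* **`geomQ3 : 3 ∣ N → ¬ 9 ∣ N → 4 ∣ N → A.LiesOverPrime 3 → Nonempty (PsiPackage N 3 A)`** : the case
  `p = 3`, at the levels divisible by `4`.
-/
import Fermat.Agent.S59lib.P3.Geom3.MPrime
import Fermat.Agent.S43lib.B0.Toric.Gen.Tame
import Fermat.Agent.S44lib.Q5.Old
import Fermat.Agent.S44lib.Q5.DimInst
import Fermat.Agent.S44lib.Q5.C1.Final

set_option autoImplicit false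
set_option linter.unusedSectionVars false
set_option linter.style.haveILetI false

noncomputable section

namespace Fermat.Agent.S59lib.P3.Geom3

open AlgebraicCurve ModularCurve IntermediateField CuspForm ModularFormClass CongruenceSubgroup
open Fermat.Agent.S18lib Fermat.Agent.S37lib Fermat.Agent.S28lib
open Fermat.Agent.LSb Fermat.Agent.LSb.Unit Fermat.Agent.S33lib Fermat.Agent.S33lib.N
open Fermat.Agent.S44lib Fermat.Agent.S44lib.Kap Fermat.Agent.S44lib.Q4 Fermat.Agent.S44lib.Q5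
open Fermat.Agent.S19lib Fermat.Agent.S43lib.B0.Gen

local notation "Qb" => AlgebraicClosure ℚ
local notation "Zbar" => integralClosure ℤ ℂ

variable {M q : ℕ} [NeZero M] [NeZero q] [hq : Fact q.Prime] {A : ValuationSubring Qb}

local notation "kA" => IsLocalRing.ResidueField A

variable (hqM : ¬ q ∣ M) (hA : A.LiesOverPrime q)
variable (C : NodalCtx (modNod hqM hA) (modG M q) (modGk hqM hA) (modGk hqM hA))

/-- **Q5**: `OldStmt` for the nodal package of a nodal context at level `M q`. -/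
theorem oldStmtC : OldStmt (modNModInstC hqM hA C) (modTΩC hqM hA C) := by
  have hBC : FormsStmt A M hA hqM := formsStmt_of_lift A M hA hqM (liftStmt_holds A M hA hqM)
  intro x hx hne hres a S hS _ heig
  haveI : HasPrincipalDivisors kA (FRes A M) := modHpdK hqM hA
  have hx0 := smul_eq_zero_of_mem_tors hx
  have hS' : ∀ ℓ, S ℓ → ℓ.Prime ∧ ¬ ℓ ∣ M ∧ ℓ ≠ q := fun ℓ h =>
    ⟨(hS ℓ h).1, fun h' => (hS ℓ h).2.1 (h'.trans (Dvd.intro q rfl)), (hS ℓ h).2.2⟩
  -- transport of the conclusion along `M * q / q = M`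
  have hdiv : M * q / q = M := Nat.mul_div_cancel M hq.out.pos
  suffices hgoal : ∃ (g : CuspForm (Gamma0 M) 2) (𝔪 : Ideal Zbar), g.IsNormalizedEigenform ∧
      𝔪.IsMaximal ∧ (q : Zbar) ∈ 𝔪 ∧ CongruentTo g 𝔪 a S by
    have key : ∀ (N' : ℕ), N' = M → ∃ (g : CuspForm (Gamma0 N') 2) (𝔪 : Ideal Zbar),
        g.IsNormalizedEigenform ∧ 𝔪.IsMaximal ∧ (q : Zbar) ∈ 𝔪 ∧ CongruentTo g 𝔪 a S := by
      intro N' hN'
      subst hN'
      exact hgoal
    exact key _ hdiv
  set ω := QPsi (modNModInstC hqM hA C) x with hωdef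
  -- the two components
  have hord₁ : ∀ Q : Place kA (FRes A M), Om.ordHom Q ω.1 = 0 := by
    intro Q
    by_cases hQ : ∀ c, Q ≠ (modNod hqM hA).x₁ c
    · exact ordHom_psi_eq_zero_of_ne₁ (modNRedC hqM hA C) C hx0 hQ
    · simp only [ne_eq, not_forall, not_not] at hQ
      obtain ⟨c, rfl⟩ := hQ
      have h1 := congrArg (fun r : QRes (modNModInstC hqM hA C) => r.1 c) hres
      exact h1
  have hord₂ : ∀ Q : Place kA (FRes A M), Om.ordHom Q ω.2 = 0 := by
    intro Q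
    by_cases hQ : ∀ c, Q ≠ (modNod hqM hA).x₂ c
    · exact ordHom_psi_eq_zero_of_ne₂ (modNRedC hqM hA C) C hx0 hQ
    · simp only [ne_eq, not_forall, not_not] at hQ
      obtain ⟨c, rfl⟩ := hQ
      have h1 := congrArg (fun r : QRes (modNModInstC hqM hA C) => r.2 c) hres
      exact h1
  have heig₁ : ∀ (ℓ : ℕ) [NeZero ℓ], S ℓ → heckeOm A M ℓ q ω.1 = a ℓ • ω.1 := by
    intro ℓ _ hℓS
    exact congrArg Prod.fst (heig ℓ (hS ℓ hℓS).1 hℓS)
  have heig₂ : ∀ (ℓ : ℕ) [NeZero ℓ], S ℓ → heckeOm A M ℓ q ω.2 = a ℓ • ω.2 := by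
    intro ℓ _ hℓS
    exact congrArg Prod.snd (heig ℓ (hS ℓ hℓS).1 hℓS)
  by_cases h1 : ω.1 = 0
  · have h2 : ω.2 ≠ 0 := fun h2 => hne (Prod.ext h1 h2)
    exact old_of_class hA hqM hBC ω.2 h2 hord₂ a S hS' heig₂
  · exact old_of_class hA hqM hBC ω.1 h1 hord₁ a S hS' heig₁

variable (hord12 : ∀ c : Fin (modS (modD1 hqM hA)),
  (modX₁ hA (modD1 hqM hA) c).ord (H₂ (modD1 hqM hA)) = 12 ∧
    (modX₂ (modD1 hqM hA) c).ord (H₂ (modD1 hqM hA)) = 12)

/-- **THE GEOMETRIC PACKAGE** (Mazur–Ribet at `p = q ≥ 3`) at a level `M q` carrying a nodal context with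
`a_c = 12` at all nodes -/
def psiPackageC (hq3 : 3 ≤ q) : PsiPackage (M * q) q A :=
  mkPsiPackage (modNModInstC hqM hA C) (by omega) hA
    (modHeckeInputsC hqM hA C hord12 (by omega))
    (mprimeStmtC hqM hA C hord12 hq3) (oldStmtC hqM hA C)

end Fermat.Agent.S59lib.P3.Geom3

namespace Fermat.Agent.S59lib.P3.Geom3

open Fermat.Agent.S44lib Fermat.Agent.S43lib.B0.Gen Fermat.Agent.LSb

local notation "Qb" => AlgebraicClosure ℚ

/-- **`GeomQStmt` at `p = 3`, at the levels divisible by `4`**: the geometric package of Mazur–Ribet at `3`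
exists at every level `N` with `3 ∥ N`, `4 ∣ N`. -/
theorem geomQ3 (N : ℕ) [NeZero N] (h3N : 3 ∣ N) (h9N : ¬ 9 ∣ N) (h4N : 4 ∣ N)
    (A : ValuationSubring Qb) (hA : A.LiesOverPrime 3) : Nonempty (PsiPackage N 3 A) := by
  obtain ⟨M, rfl⟩ := h3N
  have hM : M ≠ 0 := fun h => (NeZero.ne (3 * M)) (by rw [h, mul_zero])
  have h3M : ¬ 3 ∣ M := fun ⟨M', hM'⟩ => h9N ⟨M', by rw [hM']; ring⟩
  have h4M : 4 ∣ M := (Nat.Coprime.dvd_mul_left (by norm_num : Nat.Coprime 4 3)).1 h4N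
  haveI : NeZero M := ⟨hM⟩
  haveI : Fact (Nat.Prime 3) := ⟨Nat.prime_three⟩
  have e : M * 3 = 3 * M := mul_comm M 3
  have key : ∀ (N' : ℕ) (h : M * 3 = N') [NeZero N'], Nonempty (PsiPackage N' 3 A) := by
    intro N' h _
    subst h
    exact ⟨psiPackageC h3M hA (modCtxG h3M hA (Or.inr (Or.inr ⟨rfl, h4M⟩)))
      (ord12_three h3M hA rfl h4M) le_rfl⟩
  exact key (3 * M) e

end Fermat.Agent.S59lib.P3.Geom3

end
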