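/-
S59lib / P3 / Geom3 / Inst  (helper6)  — Project I, item (P3-a): THE CONCRETE NODAL PACKAGE FROM A NODAL CONTEXT.

`S44lib/Kap/ModInst.modNModInst hqM hA h5 : N.NModInst (M q) q A` is built for `q ≥ 5`; the hypothesis enters
only through the node count of `Kap.modCtx`.  Here the same package is built from an ARBITRARY nodal context
`C : NodalCtx (Kap.modNod hqM hA) (modG M q) (modGk hqM hA) (modGk hqM hA)` — available at every good pair
(`S43lib.B0.Gen.modCtxG`), in particular for `q = 3`, `4 ∣ M` — on top of `S43lib.B0.Gen.{modNRedC, modSymC,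
modLiftCtxC}`.

* `modNModInstC hqM hA C : N.NModInst (M * q) q A`, with `.F₁ = .F₂ = FRes A M`, `.D = modNRedC hqM hA C` (`rfl`).
-/
import Fermat.Agent.S43lib.B0.Toric.Gen.Ctx

set_option autoImplicit false
set_option linter.unusedSectionVars false
set_option linter.style.haveILetI false

noncomputable section

namespace Fermat.Agent.S59lib.P3.Geom3

open AlgebraicCurve ModularCurve Fermat.Agent.S18lib Fermat.Agent.LSb Fermat.Agent.S37lib
open Fermat.Agent.S29lib.GH Fermat.Agent.S33lib Fermat.Agent.S33lib.N Fermat.Agent.S33lib.NInst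
open Fermat.Agent.S19lib Fermat.Agent.S44lib Fermat.Agent.S44lib.Kap Fermat.Agent.S43lib.B0.Gen

local notation "Qb" => AlgebraicClosure ℚ
local notation "GQ" => (AlgebraicClosure ℚ ≃ₐ[ℚ] AlgebraicClosure ℚ)

variable {M q : ℕ} [NeZero M] [NeZero q] [hq : Fact q.Prime] {A : ValuationSubring Qb}
variable (hqM : ¬ q ∣ M) (hA : A.LiesOverPrime q)
variable (C : NodalCtx (modNod hqM hA) (modG M q) (modGk hqM hA) (modGk hqM hA))

/-- **THE CONCRETE NODAL PACKAGE** at level `M q`, from a nodal context -/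
def modNModInstC : N.NModInst (M * q) q A :=
  letI := modHpdK hqM hA
  have hϖ : A.valuation ((q : ℕ) : Qb) < 1 := (A.mem_nonunits_iff).mp hA
  have hR : (modSymC hqM hA C).R = A0 A := N.R_eq_of (modSymC hqM hA C).toIAct fun _ => rfl
  have hε : ∀ ε ∈ (modSymC hqM hA C).R, A.valuation ε < 1 →
      A.valuation ε ≤ A.valuation ((q : ℕ) : Qb) := by
    intro ε hε hlt
    rw [hR] at hε
    exact Fermat.Agent.S19lib.D.valuation_le_of_mem_A0 hq.out A hA hε hlt
  { F₁ := FRes A M
    F₂ := FRes A M
    fld₁ := inferInstance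
    fld₂ := inferInstance
    alg₁ := inferInstance
    alg₂ := inferInstance
    g := modG M q
    g₁ := modGk hqM hA
    g₂ := modGk hqM hA
    hpd := modHpd M q
    hpd₁ := modHpdK hqM hA
    hpd₂ := modHpdK hqM hA
    D := modNRedC hqM hA C
    ctx := C
    inertial := modInertialC hqM hA
    S := modSymC hqM hA C
    ρ_eq := fun _ => rfl
    famS := N.nFamOfCtx_holds A (FBar (M * q)) (FRes A M) (FRes A M) _ (modNRedC hqM hA C)
      (modSymC hqM hA C) _ _ _ (modLiftCtxC hqM hA C)
    triS := N.nExistsTriStmt_of (modLiftCtxC hqM hA C) hϖ hε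
      (N.nTriOfCtx_holds A (FBar (M * q)) (FRes A M) (FRes A M) _ (modNRedC hqM hA C)
        (modSymC hqM hA C) _ _ _ (modLiftCtxC hqM hA C))
    kerS := NB.nKerStmt_of C }

theorem modNModInstC_F₁ : (modNModInstC hqM hA C).F₁ = FRes A M := rfl

theorem modNModInstC_F₂ : (modNModInstC hqM hA C).F₂ = FRes A M := rfl

theorem modNModInstC_D : (modNModInstC hqM hA C).D = modNRedC hqM hA C := rfl

theorem modNModInstC_nod : (modNModInstC hqM hA C).D.nod = modNod hqM hA := rfl

theorem modNModInstC_V₁ : (modNModInstC hqM hA C).D.nod.V₁ = modD1 hqM hA := rfl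

theorem modNModInstC_V₂ : (modNModInstC hqM hA C).D.nod.V₂ = modD2' hqM hA := rfl

end Fermat.Agent.S59lib.P3.Geom3

end
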